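import Mathlib
import Fermat.Agent.S13.Local.NodalInst

/-!
# PROJECT M (S15), block (M-e): Vélu's numbers

For a Weierstrass curve `W` over a field `K` and a set `C` of points (in practice a finite subgroup
of odd order) we define Vélu's sums

* `veluT W C = (1/2) ∑_{0 ≠ P ∈ C} (6 x² + b₂ x + b₄)`,
* `veluW W C = (1/2) ∑_{0 ≠ P ∈ C} (10 x³ + 2 b₂ x² + 3 b₄ x + b₆)`,

the curve `veluCurve W C = (a₁, a₂, a₃, a₄ - 5 t, a₆ - b₂ t - 7 w)` and the number
`veluJ W C = c₄(veluCurve)³ / Δ(veluCurve)`, the `j`-invariant of the quotient `W / C`.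
Nobody needs the isogeny itself.  `sum_zmultiples` rewrites the sums over a cyclic group of odd
prime order `p` as sums over the half system `{m • P : 1 ≤ m ≤ (p - 1)/2}`.
-/

set_option autoImplicit false
set_option linter.unusedSectionVars false

noncomputable section

namespace Fermat.Agent.S15.Velu

open WeierstrassCurve Fermat.Agent.S13.Local.NodalInst

variable {K : Type*} [Field K]

/-- Vélu's `t`-term as a function of the `x`-coordinate -/
def tTerm (W : WeierstrassCurve K) (x : K) : K := 6 * x ^ 2 + W.b₂ * x + W.b₄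

/-- Vélu's `w`-term (`u + x t`) as a function of the `x`-coordinate -/
def wTerm (W : WeierstrassCurve K) (x : K) : K :=
  10 * x ^ 3 + 2 * W.b₂ * x ^ 2 + 3 * W.b₄ * x + W.b₆

/-- Vélu's `t` for a set of points (half of the sum over the non-zero points) -/
def veluT (W : WeierstrassCurve K) (C : Set W.toAffine.Point) : K :=
  (∑ᶠ P ∈ C \ {0}, tTerm W (ptX W P)) / 2

/-- Vélu's `w` for a set of points (half of the sum over the non-zero points) -/
def veluW (W : WeierstrassCurve K) (C : Set W.toAffine.Point) : K :=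
  (∑ᶠ P ∈ C \ {0}, wTerm W (ptX W P)) / 2

/-- Vélu's model of the quotient curve -/
def veluCurve (W : WeierstrassCurve K) (C : Set W.toAffine.Point) : WeierstrassCurve K :=
  ⟨W.a₁, W.a₂, W.a₃, W.a₄ - 5 * veluT W C, W.a₆ - W.b₂ * veluT W C - 7 * veluW W C⟩

/-- the `j`-invariant of the quotient `W / C` (as a plain quotient `c₄³ / Δ`) -/
def veluJ (W : WeierstrassCurve K) (C : Set W.toAffine.Point) : K :=
  (veluCurve W C).c₄ ^ 3 / (veluCurve W C).Δ

/-! ### sums over a cyclic group of odd prime order -/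

section sums

variable {G : Type*} [AddCommGroup G]

theorem nsmul_injOn_Icc {p : ℕ} (hp : p.Prime) {P : G} (hP : P ≠ 0) (hpP : p • P = 0) :
    Set.InjOn (fun m : ℕ => m • P) (Finset.Icc 1 (p - 1) : Finset ℕ) := by
  have : Fact p.Prime := ⟨hp⟩
  have ho : addOrderOf P = p := addOrderOf_eq_prime hpP hP
  intro m hm m' hm' h
  rw [Finset.coe_Icc, Set.mem_Icc] at hm hm'
  have h' : m • P = m' • P := h
  rw [nsmul_eq_nsmul_iff_modEq, ho] at h'
  have h1 : m % p = m := Nat.mod_eq_of_lt (by omega)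
  have h2 : m' % p = m' := Nat.mod_eq_of_lt (by omega)
  have := h'
  unfold Nat.ModEq at this
  omega

theorem bijOn_nsmul {p : ℕ} (hp : p.Prime) {P : G} (hP : P ≠ 0) (hpP : p • P = 0) :
    Set.BijOn (fun m : ℕ => m • P) (Finset.Icc 1 (p - 1) : Finset ℕ)
      ((AddSubgroup.zmultiples P : Set G) \ {0}) := by
  have : Fact p.Prime := ⟨hp⟩
  have ho : addOrderOf P = p := addOrderOf_eq_prime hpP hP
  refine ⟨?_, nsmul_injOn_Icc hp hP hpP, ?_⟩
  · intro m hm
    rw [Finset.coe_Icc, Set.mem_Icc] at hm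
    refine ⟨?_, ?_⟩
    · exact AddSubgroup.nsmul_mem _ (AddSubgroup.mem_zmultiples P) m
    · intro h
      have h0 : m • P = 0 := h
      have := addOrderOf_dvd_of_nsmul_eq_zero h0
      rw [ho] at this
      have := Nat.le_of_dvd (by omega) this
      omega
  · rintro Q ⟨hQ, hQ0⟩
    obtain ⟨z, rfl⟩ := AddSubgroup.mem_zmultiples_iff.mp hQ
    have hpz : (0 : ℤ) < p := by exact_mod_cast hp.pos
    refine ⟨(z % (p : ℤ)).toNat, ?_, ?_⟩
    · rw [Finset.coe_Icc, Set.mem_Icc]
      have h1 : 0 ≤ z % (p : ℤ) := Int.emod_nonneg _ hpz.ne'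
      have h2 : z % (p : ℤ) < p := Int.emod_lt_of_pos _ hpz
      have h3 : z % (p : ℤ) ≠ 0 := by
        intro h
        apply hQ0
        have hdvd : (p : ℤ) ∣ z := Int.dvd_of_emod_eq_zero h
        obtain ⟨c, rfl⟩ := hdvd
        show ((p : ℤ) * c) • P = 0
        rw [mul_comm, mul_zsmul, natCast_zsmul, hpP, smul_zero]
      omega
    · show (z % (p : ℤ)).toNat • P = z • P
      have h1 : 0 ≤ z % (p : ℤ) := Int.emod_nonneg _ hpz.ne'
      rw [← natCast_zsmul, Int.toNat_of_nonneg h1]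
      have hz : z = z % (p : ℤ) + (p : ℤ) * (z / (p : ℤ)) := (Int.emod_add_mul_ediv z p).symm
      conv_rhs => rw [hz, add_zsmul, mul_comm, mul_zsmul, natCast_zsmul, hpP, smul_zero, add_zero]

/-- a sum over the non-zero elements of a cyclic group of prime order -/
theorem finsum_zmultiples {p : ℕ} (hp : p.Prime) {P : G} (hP : P ≠ 0) (hpP : p • P = 0)
    (f : G → K) :
    ∑ᶠ Q ∈ (AddSubgroup.zmultiples P : Set G) \ {0}, f Q
      = ∑ m ∈ Finset.Icc 1 (p - 1), f (m • P) := by
  rw [← finsum_mem_coe_finset]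
  exact (finsum_mem_eq_of_bijOn (fun m : ℕ => m • P) (bijOn_nsmul hp hP hpP)
    (fun _ _ => rfl)).symm

/-- an even function summed over `1 ≤ m ≤ p - 1` -/
theorem sum_Icc_even {p : ℕ} (hp : p.Prime) (hp2 : p ≠ 2) {P : G} (hpP : p • P = 0)
    (f : G → K) (hf : ∀ Q, f (-Q) = f Q) :
    ∑ m ∈ Finset.Icc 1 (p - 1), f (m • P)
      = 2 * ∑ m ∈ Finset.Icc 1 ((p - 1) / 2), f (m • P) := by
  obtain ⟨h, rfl⟩ : ∃ h, p = 2 * h + 1 := by
    rcases hp.eq_two_or_odd with h | h
    · exact absurd h hp2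
    · exact ⟨p / 2, by omega⟩
  have e1 : 2 * h + 1 - 1 = 2 * h := by omega
  have e2 : 2 * h / 2 = h := by omega
  rw [e1, e2]
  have hsplit : Finset.Icc 1 (2 * h) = Finset.Icc 1 h ∪ Finset.Icc (h + 1) (2 * h) := by
    ext m
    simp only [Finset.mem_Icc, Finset.mem_union]
    omega
  have hdisj : Disjoint (Finset.Icc 1 h) (Finset.Icc (h + 1) (2 * h)) := by
    rw [Finset.disjoint_left]
    intro m hm hm'
    rw [Finset.mem_Icc] at hm hm'
    omega
  have key : ∑ m ∈ Finset.Icc (h + 1) (2 * h), f (m • P) = ∑ m ∈ Finset.Icc 1 h, f (m • P) := by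
    refine Finset.sum_nbij' (fun m : ℕ => 2 * h + 1 - m) (fun m : ℕ => 2 * h + 1 - m)
      ?_ ?_ ?_ ?_ ?_
    · intro m hm
      rw [Finset.mem_Icc] at hm ⊢
      omega
    · intro m hm
      rw [Finset.mem_Icc] at hm ⊢
      omega
    · intro m hm
      rw [Finset.mem_Icc] at hm
      omega
    · intro m hm
      rw [Finset.mem_Icc] at hm
      omega
    · intro m hm
      rw [Finset.mem_Icc] at hm
      have : m • P = -((2 * h + 1 - m) • P) := by
        have h1 : m • P + (2 * h + 1 - m) • P = 0 := by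
          rw [← add_nsmul, Nat.add_sub_cancel' (by omega), hpP]
        exact eq_neg_of_add_eq_zero_left h1
      rw [this, hf]
  rw [hsplit, Finset.sum_union hdisj, key, ← two_mul]

/-- a sum of an even function over a cyclic group of odd prime order, halved -/
theorem half_finsum_zmultiples (h2 : (2 : K) ≠ 0) {p : ℕ} (hp : p.Prime) (hp2 : p ≠ 2) {P : G}
    (hP : P ≠ 0) (hpP : p • P = 0) (f : G → K) (hf : ∀ Q, f (-Q) = f Q) :
    (∑ᶠ Q ∈ (AddSubgroup.zmultiples P : Set G) \ {0}, f Q) / 2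
      = ∑ m ∈ Finset.Icc 1 ((p - 1) / 2), f (m • P) := by
  rw [finsum_zmultiples hp hP hpP, sum_Icc_even hp hp2 hpP f hf, mul_div_cancel_left₀ _ h2]

end sums

section cyclic

variable [DecidableEq K] {W : WeierstrassCurve K}

theorem veluT_zmultiples (h2 : (2 : K) ≠ 0) {p : ℕ} (hp : p.Prime) (hp2 : p ≠ 2)
    {P : W.toAffine.Point} (hP : P ≠ 0) (hpP : p • P = 0) :
    veluT W (AddSubgroup.zmultiples P : Set W.toAffine.Point)
      = ∑ m ∈ Finset.Icc 1 ((p - 1) / 2), tTerm W (ptX W (m • P)) :=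
  half_finsum_zmultiples h2 hp hp2 hP hpP (fun Q => tTerm W (ptX W Q))
    (fun Q => by rw [ptX_neg])

theorem veluW_zmultiples (h2 : (2 : K) ≠ 0) {p : ℕ} (hp : p.Prime) (hp2 : p ≠ 2)
    {P : W.toAffine.Point} (hP : P ≠ 0) (hpP : p • P = 0) :
    veluW W (AddSubgroup.zmultiples P : Set W.toAffine.Point)
      = ∑ m ∈ Finset.Icc 1 ((p - 1) / 2), wTerm W (ptX W (m • P)) :=
  half_finsum_zmultiples h2 hp hp2 hP hpP (fun Q => wTerm W (ptX W Q))
    (fun Q => by rw [ptX_neg])

end cyclic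

end Fermat.Agent.S15.Velu
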