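import Mathlib
import Fermat.Agent.S15.Velu.Defs
import Fermat.Agent.S13.CU.VarChange

/-!
# PROJECT M (S15), block (M-e), leaf (E1-a): the algebra of Vélu's numbers

* `veluCurve_c₄`, `veluCurve_c₆`: `c₄' = c₄ + 240 t`, `c₆' = c₆ + 504 (b₂ t + 12 w)`;
* `veluCurve_variableChange`: Vélu's model commutes with every admissible change of variables
  (`t' = u⁻⁴ t`, `w' = u⁻⁶ (w - r t)`), the point sets being matched by
  `S13/CU/VarChange.pointEquiv`;
* `veluJ_variableChange`, `veluJ_zmultiples_variableChange`: Vélu's `j` is unchanged.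
-/

set_option autoImplicit false
set_option linter.unusedSectionVars false
set_option linter.unusedVariables false

noncomputable section

namespace Fermat.Agent.S15.Velu

open WeierstrassCurve Fermat.Agent.S13.Local.NodalInst Fermat.Agent.S13.CU.VarChange

variable {K : Type*} [Field K]

/-! ### the invariants of Vélu's model -/

section invariants

variable (W : WeierstrassCurve K) (C : Set W.toAffine.Point)

@[simp] theorem veluCurve_a₁ : (veluCurve W C).a₁ = W.a₁ := rfl
@[simp] theorem veluCurve_a₂ : (veluCurve W C).a₂ = W.a₂ := rfl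
@[simp] theorem veluCurve_a₃ : (veluCurve W C).a₃ = W.a₃ := rfl
theorem veluCurve_a₄ : (veluCurve W C).a₄ = W.a₄ - 5 * veluT W C := rfl
theorem veluCurve_a₆ : (veluCurve W C).a₆ = W.a₆ - W.b₂ * veluT W C - 7 * veluW W C := rfl

@[simp] theorem veluCurve_b₂ : (veluCurve W C).b₂ = W.b₂ := rfl

theorem veluCurve_b₄ : (veluCurve W C).b₄ = W.b₄ - 10 * veluT W C := by
  simp only [WeierstrassCurve.b₄, veluCurve_a₄, veluCurve_a₁, veluCurve_a₃]; ring

theorem veluCurve_b₆ :
    (veluCurve W C).b₆ = W.b₆ - 4 * W.b₂ * veluT W C - 28 * veluW W C := by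
  simp only [WeierstrassCurve.b₆, veluCurve_a₆, veluCurve_a₃]; ring

theorem veluCurve_c₄ : (veluCurve W C).c₄ = W.c₄ + 240 * veluT W C := by
  simp only [WeierstrassCurve.c₄, veluCurve_b₂, veluCurve_b₄]; ring

theorem veluCurve_c₆ :
    (veluCurve W C).c₆ = W.c₆ + 504 * (W.b₂ * veluT W C + 12 * veluW W C) := by
  simp only [WeierstrassCurve.c₆, veluCurve_b₂, veluCurve_b₄, veluCurve_b₆]; ring

end invariants

/-! ### change of variables: the terms -/

section terms

variable (W : WeierstrassCurve K) (V : VariableChange K)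

theorem tTerm_variableChange (x : K) :
    tTerm (V • W) x = ((V.u⁻¹ : Kˣ) : K) ^ 4 * tTerm W (vx V x) := by
  have hu : (V.u : K) ≠ 0 := V.u.ne_zero
  simp only [tTerm, vx, variableChange_b₂, variableChange_b₄, Units.val_inv_eq_inv_val]
  field_simp
  ring

theorem wTerm_variableChange (x : K) :
    wTerm (V • W) x
      = ((V.u⁻¹ : Kˣ) : K) ^ 6 * (wTerm W (vx V x) - V.r * tTerm W (vx V x)) := by
  have hu : (V.u : K) ≠ 0 := V.u.ne_zero
  simp only [wTerm, tTerm, vx, variableChange_b₂, variableChange_b₄, variableChange_b₆,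
    Units.val_inv_eq_inv_val]
  field_simp
  ring

end terms

/-! ### change of variables: the sums -/

section sums

variable [DecidableEq K] (W : WeierstrassCurve K) (V : VariableChange K)

theorem ptX_pointEquiv {P : (V • W).toAffine.Point} (hP : P ≠ 0) :
    ptX W (pointEquiv W V P) = vx V (ptX (V • W) P) := by
  cases P with
  | zero => exact absurd rfl hP
  | some x y h => rw [pointEquiv_some]; rfl

theorem ptY_pointEquiv {P : (V • W).toAffine.Point} (hP : P ≠ 0) :
    ptY W (pointEquiv W V P) = vy V (ptX (V • W) P) (ptY (V • W) P) := by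
  cases P with
  | zero => exact absurd rfl hP
  | some x y h => rw [pointEquiv_some]; rfl

theorem bijOn_pointEquiv (C : Set W.toAffine.Point) :
    Set.BijOn (pointEquiv W V) ((pointEquiv W V) ⁻¹' C \ {0}) (C \ {0}) := by
  refine ⟨?_, (pointEquiv W V).injective.injOn, ?_⟩
  · rintro P ⟨hP, hP0⟩
    refine ⟨hP, ?_⟩
    intro h
    exact hP0 ((pointEquiv W V).map_eq_zero_iff.mp h)
  · rintro Q ⟨hQ, hQ0⟩
    refine ⟨(pointEquiv W V).symm Q, ⟨?_, ?_⟩, ?_⟩
    · show pointEquiv W V ((pointEquiv W V).symm Q) ∈ C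
      rw [AddEquiv.apply_symm_apply]; exact hQ
    · intro h
      apply hQ0
      have : (pointEquiv W V).symm Q = 0 := h
      rw [AddEquiv.map_eq_zero_iff] at this
      exact this
    · exact AddEquiv.apply_symm_apply _ _

/-- transport of a sum over the non-zero points along the change of variables -/
theorem finsum_variableChange (C : Set W.toAffine.Point) (f : K → K) :
    ∑ᶠ P ∈ (pointEquiv W V) ⁻¹' C \ {0}, f (vx V (ptX (V • W) P))
      = ∑ᶠ P ∈ C \ {0}, f (ptX W P) := by
  rw [← finsum_mem_eq_of_bijOn (pointEquiv W V) (bijOn_pointEquiv W V C)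
    (f := fun P => f (vx V (ptX (V • W) P))) (g := fun Q => f (ptX W Q))]
  intro P hP
  rw [ptX_pointEquiv W V hP.2]

theorem veluT_variableChange (C : Set W.toAffine.Point) (hC : C.Finite) :
    veluT (V • W) ((pointEquiv W V) ⁻¹' C) = ((V.u⁻¹ : Kˣ) : K) ^ 4 * veluT W C := by
  unfold veluT
  have h1 : ∑ᶠ P ∈ (pointEquiv W V) ⁻¹' C \ {0}, tTerm (V • W) (ptX (V • W) P)
      = ∑ᶠ P ∈ (pointEquiv W V) ⁻¹' C \ {0},
          ((V.u⁻¹ : Kˣ) : K) ^ 4 * tTerm W (vx V (ptX (V • W) P)) :=
    finsum_mem_congr rfl fun P _ => tTerm_variableChange W V _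
  rw [h1, finsum_variableChange W V C (fun x => ((V.u⁻¹ : Kˣ) : K) ^ 4 * tTerm W x),
    ← mul_finsum_mem]
  ring

theorem veluW_variableChange (C : Set W.toAffine.Point) (hC : C.Finite) :
    veluW (V • W) ((pointEquiv W V) ⁻¹' C)
      = ((V.u⁻¹ : Kˣ) : K) ^ 6 * (veluW W C - V.r * veluT W C) := by
  unfold veluW veluT
  have h1 : ∑ᶠ P ∈ (pointEquiv W V) ⁻¹' C \ {0}, wTerm (V • W) (ptX (V • W) P)
      = ∑ᶠ P ∈ (pointEquiv W V) ⁻¹' C \ {0},
          ((V.u⁻¹ : Kˣ) : K) ^ 6 * (wTerm W (vx V (ptX (V • W) P))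
            - V.r * tTerm W (vx V (ptX (V • W) P))) :=
    finsum_mem_congr rfl fun P _ => wTerm_variableChange W V _
  have hfin : (C \ {0}).Finite := hC.sdiff
  rw [h1, finsum_variableChange W V C
      (fun x => ((V.u⁻¹ : Kˣ) : K) ^ 6 * (wTerm W x - V.r * tTerm W x)),
    ← mul_finsum_mem, finsum_mem_sub_distrib _ _ hfin, ← mul_finsum_mem]
  ring

/-- **(T2)** Vélu's model commutes with changes of variables. -/
theorem veluCurve_variableChange (C : Set W.toAffine.Point) (hC : C.Finite) :
    veluCurve (V • W) ((pointEquiv W V) ⁻¹' C) = V • veluCurve W C := by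
  have hu : (V.u : K) ≠ 0 := V.u.ne_zero
  have hT := veluT_variableChange W V C hC
  have hW' := veluW_variableChange W V C hC
  ext
  · simp only [veluCurve_a₁, variableChange_a₁]
  · simp only [veluCurve_a₂, veluCurve_a₁, variableChange_a₂]
  · simp only [veluCurve_a₃, veluCurve_a₁, variableChange_a₃]
  · rw [veluCurve_a₄, hT, variableChange_a₄, variableChange_a₄]
    simp only [veluCurve_a₁, veluCurve_a₂, veluCurve_a₃, veluCurve_a₄]
    ring
  · rw [veluCurve_a₆, hT, hW', variableChange_a₆, variableChange_a₆, variableChange_b₂]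
    simp only [veluCurve_a₁, veluCurve_a₂, veluCurve_a₃, veluCurve_a₄, veluCurve_a₆,
      Units.val_inv_eq_inv_val]
    field_simp
    ring

/-- Vélu's `j` is invariant under changes of variables. -/
theorem veluJ_variableChange (C : Set W.toAffine.Point) (hC : C.Finite) :
    veluJ (V • W) ((pointEquiv W V) ⁻¹' C) = veluJ W C := by
  have hu : (V.u : K) ≠ 0 := V.u.ne_zero
  unfold veluJ
  rw [veluCurve_variableChange W V C hC, variableChange_c₄, variableChange_Δ,
    Units.val_inv_eq_inv_val]
  by_cases hΔ : (veluCurve W C).Δ = 0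
  · rw [hΔ]; simp
  · field_simp

theorem preimage_zmultiples (P : (V • W).toAffine.Point) :
    (pointEquiv W V) ⁻¹' (AddSubgroup.zmultiples (pointEquiv W V P) : Set W.toAffine.Point)
      = (AddSubgroup.zmultiples P : Set (V • W).toAffine.Point) := by
  ext Q
  simp only [Set.mem_preimage, SetLike.mem_coe, AddSubgroup.mem_zmultiples_iff]
  constructor
  · rintro ⟨k, hk⟩
    refine ⟨k, (pointEquiv W V).injective ?_⟩
    rw [map_zsmul]; exact hk
  · rintro ⟨k, rfl⟩
    exact ⟨k, (map_zsmul _ _ _).symm⟩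

/-- Vélu's `j` of a cyclic subgroup is invariant under changes of variables. -/
theorem veluJ_zmultiples_variableChange (P : (V • W).toAffine.Point)
    (hfin : (AddSubgroup.zmultiples (pointEquiv W V P) : Set W.toAffine.Point).Finite) :
    veluJ (V • W) (AddSubgroup.zmultiples P : Set (V • W).toAffine.Point)
      = veluJ W (AddSubgroup.zmultiples (pointEquiv W V P) : Set W.toAffine.Point) := by
  rw [← preimage_zmultiples W V P]
  exact veluJ_variableChange W V _ hfin

end sums

end Fermat.Agent.S15.Velu
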