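import Mathlib
import Fermat.Agent.S13.Local.NodalRules

/-!
# PROJECT M (S15), leaf (e2a), step A: the phase structure of a cyclic subgroup in the node region,
normalised at a generator of maximal valuation

`phaseMax_abstract` is the combinatorial core (a refinement of `S05.Phase.phase_abstract`): if the
generator is chosen with `y 1` maximal, the flip "opposite branch → same branch" never occurs, so
`y m = y 1 ^ m` on the first stretch, `y m = y 1 ^ (p - m)` on the second one, and closing the
circle gives `y 1 ^ p = ε ^ 2`.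
-/

set_option autoImplicit false
set_option linter.unusedSectionVars false

namespace Fermat.Agent.S15.Velu.PhaseMax

section abstract_core

variable {M : Type*} [LinearOrderedCommGroupWithZero M]

/-- The combinatorial core, normalised at a maximal generator. -/
theorem phaseMax_abstract (ε : M) (p : ℕ) (hp : 3 ≤ p)
    (y : ℕ → M) (β : ℕ → Prop)
    (hy0 : ∀ m, 1 ≤ m → m < p → y m ≠ 0)
    (hy1 : ∀ m, 1 ≤ m → m < p → y m < 1)
    (hmax : ∀ m, 1 ≤ m → m < p → y m ≤ y 1)
    (hβ1 : β 1)
    (hstepT : ∀ j, 1 ≤ j → j + 1 < p → β j →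
      (β (j + 1) ∧ y (j + 1) = y j * y 1) ∨ (¬ β (j + 1) ∧ y (j + 1) * (y j * y 1) = ε ^ 2))
    (hstepF : ∀ j, 1 ≤ j → j + 1 < p → ¬ β j →
      (¬ β (j + 1) ∧ y (j + 1) * y 1 = y j) ∨ (β (j + 1) ∧ y (j + 1) * y j = y 1))
    (hlastβ : ¬ β (p - 1)) (hlasty : y (p - 1) = y 1) :
    y 1 ^ p = ε ^ 2 ∧ ∀ m, 2 ≤ m → m + 2 ≤ p → y m ≤ y 1 ^ 2 := by
  classical
  have h10 : y 1 ≠ 0 := hy0 1 le_rfl (by omega)
  -- from the opposite branch one stays on the opposite branch
  have stepF' : ∀ j, 1 ≤ j → j + 1 < p → ¬ β j → ¬ β (j + 1) ∧ y (j + 1) * y 1 = y j := by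
    intro j hj hjp hb
    rcases hstepF j hj hjp hb with h | ⟨_, h⟩
    · exact h
    · exfalso
      have hj0 : y j ≠ 0 := hy0 j hj (by omega)
      have hle : y j ≤ y 1 := hmax j hj (by omega)
      have hlt : y (j + 1) < 1 := hy1 (j + 1) (by omega) hjp
      have : y (j + 1) * y j < 1 * y j := by
        exact mul_lt_mul_of_pos_right hlt (zero_lt_iff.mpr hj0)
      rw [h, one_mul] at this
      exact absurd hle (not_le.mpr this)
  -- first index at which the branch is opposite
  have hex : ∃ m, 1 ≤ m ∧ m < p ∧ ¬ β m := ⟨p - 1, by omega, by omega, hlastβ⟩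
  let m₁ := Nat.find hex
  have hm₁ : 1 ≤ m₁ ∧ m₁ < p ∧ ¬ β m₁ := Nat.find_spec hex
  have hmin : ∀ i, 1 ≤ i → i < m₁ → β i := by
    intro i hi him
    by_contra hb
    exact Nat.find_min hex him ⟨hi, by omega, hb⟩
  have hm₁2 : 2 ≤ m₁ := by
    rcases Nat.lt_or_ge m₁ 2 with h | h
    · have : m₁ = 1 := by omega
      exact absurd hβ1 (this ▸ hm₁.2.2)
    · exact h
  -- first stretch: `y i = y 1 ^ i` for `i < m₁`
  have hfirst : ∀ i, 1 ≤ i → i < m₁ → y i = y 1 ^ i := by
    intro i hi
    induction i, hi using Nat.le_induction with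
    | base => intro _; rw [pow_one]
    | succ i hi ih =>
      intro him
      have hbi := hmin i hi (by omega)
      have hbi1 := hmin (i + 1) (by omega) him
      rcases hstepT i hi (by omega) hbi with ⟨_, h⟩ | ⟨h, _⟩
      · rw [h, ih (by omega), pow_succ]
      · exact absurd hbi1 h
  -- the flip
  have hflip : y m₁ * y 1 ^ m₁ = ε ^ 2 := by
    have hb := hmin (m₁ - 1) (by omega) (by omega)
    rcases hstepT (m₁ - 1) (by omega) (by omega) hb with ⟨h, _⟩ | ⟨_, h⟩
    · rw [Nat.sub_add_cancel hm₁.1] at h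
      exact absurd h hm₁.2.2
    · rw [Nat.sub_add_cancel hm₁.1, hfirst (m₁ - 1) (by omega) (by omega)] at h
      rw [← h]
      have : y 1 ^ (m₁ - 1) * y 1 = y 1 ^ m₁ := by
        rw [← pow_succ, Nat.sub_add_cancel hm₁.1]
      rw [this]
  -- second stretch: opposite branch all the way
  have hsecondβ : ∀ i, m₁ ≤ i → i < p → ¬ β i := by
    intro i hi
    induction i, hi using Nat.le_induction with
    | base => intro _; exact hm₁.2.2
    | succ i hi ih =>
      intro hip
      exact (stepF' i (by omega) hip (ih (by omega))).1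
  have hsecond : ∀ k, k + 1 ≤ p → m₁ + k ≤ p → 1 ≤ k → y (p - k) = y 1 ^ k := by
    intro k
    induction k with
    | zero => intro _ _ h; omega
    | succ k ih =>
      intro h1 h2 _
      rcases Nat.eq_zero_or_pos k with rfl | hk
      · simpa using hlasty
      · have hb := hsecondβ (p - (k + 1)) (by omega) (by omega)
        have hs := (stepF' (p - (k + 1)) (by omega) (by omega) hb).2
        have e : p - (k + 1) + 1 = p - k := by omega
        rw [e, ih (by omega) (by omega) hk] at hs
        rw [← hs, pow_succ]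
  have hym₁ : y m₁ = y 1 ^ (p - m₁) := by
    have := hsecond (p - m₁) (by omega) (by omega) (by omega)
    rwa [show p - (p - m₁) = m₁ by omega] at this
  refine ⟨?_, ?_⟩
  · rw [← hflip, hym₁, ← pow_add]
    congr 1
    omega
  · intro m hm2 hmp
    have h1le : y 1 ≤ 1 := (hy1 1 le_rfl (by omega)).le
    rcases Nat.lt_or_ge m m₁ with h | h
    · rw [hfirst m (by omega) h]
      exact pow_le_pow_right_of_le_one' h1le hm2
    · have := hsecond (p - m) (by omega) (by omega) (by omega)
      rw [show p - (p - m) = m by omega] at this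
      rw [this]
      exact pow_le_pow_right_of_le_one' h1le (by omega)

end abstract_core

end Fermat.Agent.S15.Velu.PhaseMax
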