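import Mathlib
import Fermat.Agent.S15.Velu.PhaseMax

/-!
# PROJECT M (S15), leaf (e2a), step A': a generator of maximal valuation in the node region

`D : NodalData K G a₁ a₂ a₄`, `v` a valuation with `Hyp v a₁ a₂ a₄`, `P` of odd prime order `p`
all of whose non-zero multiples reduce to the node.  Then some multiple `P₁ = j₀ • P`
(`0 < j₀ < p`) satisfies, with `h := v (X P₁)`:

* every non-zero multiple of `P₁` lies in the strict node region;
* `h ^ p = v a₄ ^ 2`;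
* `v (X (m • P₁)) ≤ h ^ 2` for `2 ≤ m ≤ p - 2`.
-/

set_option autoImplicit false
set_option linter.unusedSectionVars false

namespace Fermat.Agent.S15.Velu.NodeStruct

open Fermat.Agent.S13.Local Fermat.Agent.S13.Local.NodalData

variable {K : Type*} [Field K] {G : Type*} [AddCommGroup G] {a₁ a₂ a₄ : K}
  {D : NodalData K G a₁ a₂ a₄}
  {Γ₀ : Type*} [LinearOrderedCommGroupWithZero Γ₀] {v : Valuation K Γ₀}

/-- multiples of a multiple -/
theorem nsmul_nsmul_mod {p : ℕ} (hp : p.Prime) {P : G} (hP : P ≠ 0) (hpP : p • P = 0)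
    (m j : ℕ) : m • (j • P) = ((m * j) % p) • P := by
  have : Fact p.Prime := ⟨hp⟩
  have ho : addOrderOf P = p := addOrderOf_eq_prime hpP hP
  rw [← mul_nsmul', ← ho, mod_addOrderOf_nsmul, mul_comm]

theorem mul_mod_pos {p : ℕ} (hp : p.Prime) {m j : ℕ} (hm0 : 0 < m) (hmp : m < p)
    (hj0 : 0 < j) (hjp : j < p) : 0 < (m * j) % p := by
  rw [Nat.pos_iff_ne_zero]
  intro h
  rcases (Nat.Prime.dvd_mul hp).mp (Nat.dvd_of_mod_eq_zero h) with h' | h'
  · exact absurd (Nat.le_of_dvd hm0 h') (not_le.mpr hmp)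
  · exact absurd (Nat.le_of_dvd hj0 h') (not_le.mpr hjp)

/-- **The structure theorem at a maximal generator.** -/
theorem exists_max_generator (H : Hyp v a₁ a₂ a₄)
    {p : ℕ} (hp : p.Prime) (hp2 : p ≠ 2) {P : G} (hP : P ≠ 0) (hpP : p • P = 0)
    (hall : ∀ j, 0 < j → j < p → v (D.X (j • P)) < 1) :
    ∃ j₀, 0 < j₀ ∧ j₀ < p ∧
      (∀ m, 0 < m → m < p → D.InN v (m • (j₀ • P))) ∧
      v (D.X (j₀ • P)) ^ p = v a₄ ^ 2 ∧
      ∀ m, 2 ≤ m → m + 2 ≤ p → v (D.X (m • (j₀ • P))) ≤ v (D.X (j₀ • P)) ^ 2 := by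
  classical
  have R : NodalPhase.NodeRules D v := NodalRules.nodeRules H
  have hp3 : 3 ≤ p := by
    have := hp.two_le
    omega
  -- a multiple of maximal valuation
  have hne : (Finset.Icc 1 (p - 1)).Nonempty := ⟨1, Finset.mem_Icc.mpr ⟨le_rfl, by omega⟩⟩
  obtain ⟨j₀, hj₀mem, hj₀max⟩ :=
    Finset.exists_max_image (Finset.Icc 1 (p - 1)) (fun j => v (D.X (j • P))) hne
  rw [Finset.mem_Icc] at hj₀mem
  have hj₀0 : 0 < j₀ := by omega
  have hj₀p : j₀ < p := by omega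
  set P₁ := j₀ • P with hP₁
  have hP₁ne : P₁ ≠ 0 := Fermat.Agent.S05.Phase.nsmul_ne_zero_of_lt hp hP hpP hj₀0 hj₀p
  have hpP₁ : p • P₁ = 0 := by
    rw [hP₁, smul_comm, hpP, smul_zero]
  have hall₁ : ∀ m, 0 < m → m < p → v (D.X (m • P₁)) < 1 := by
    intro m hm0 hmp
    rw [hP₁, nsmul_nsmul_mod hp hP hpP]
    exact hall _ (mul_mod_pos hp hm0 hmp hj₀0 hj₀p) (Nat.mod_lt _ hp.pos)
  have hmax₁ : ∀ m, 0 < m → m < p → v (D.X (m • P₁)) ≤ v (D.X P₁) := by
    intro m hm0 hmp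
    rw [hP₁, nsmul_nsmul_mod hp hP hpP]
    refine hj₀max _ (Finset.mem_Icc.mpr ⟨mul_mod_pos hp hm0 hmp hj₀0 hj₀p, ?_⟩)
    have := Nat.mod_lt (m * j₀) hp.pos
    omega
  have hN : ∀ m, 0 < m → m < p → D.InN v (m • P₁) :=
    fun m hm0 hmp => NodalPhase.inN_of_all R hp hP₁ne hpP₁ hp2 hall₁ hm0 hmp
  have hNP : D.InN v P₁ := by
    have := hN 1 one_pos (by omega)
    rwa [one_nsmul] at this
  refine ⟨j₀, hj₀0, hj₀p, hN, ?_⟩
  have key := PhaseMax.phaseMax_abstract (v a₄) p hp3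
    (fun m => v (D.X (m • P₁))) (fun m => D.Same v (m • P₁) P₁) ?_ ?_ ?_ ?_ ?_ ?_ ?_ ?_
  · simpa only [one_nsmul] using key
  · intro m hm hmp
    exact NodalPhase.InN.vX_ne_zero (hN m (by omega) hmp)
  · intro m hm hmp
    exact hall₁ m (by omega) hmp
  · intro m hm hmp
    simpa only [one_nsmul] using hmax₁ m (by omega) hmp
  · show D.Same v (1 • P₁) P₁
    rw [one_nsmul]
    exact NodalPhase.same_refl P₁
  · intro j hj hjp hβ
    have hNj := hN j (by omega) (by omega)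
    have hNj1 := hN (j + 1) (by omega) hjp
    have hsucc : (j + 1) • P₁ = j • P₁ + P₁ := succ_nsmul P₁ j
    show (D.Same v ((j + 1) • P₁) P₁ ∧
        v (D.X ((j + 1) • P₁)) = v (D.X (j • P₁)) * v (D.X (1 • P₁))) ∨
      (¬ D.Same v ((j + 1) • P₁) P₁ ∧
        v (D.X ((j + 1) • P₁)) * (v (D.X (j • P₁)) * v (D.X (1 • P₁))) = v a₄ ^ 2)
    rw [one_nsmul, hsucc]
    rw [hsucc] at hNj1
    rcases R.same (j • P₁) P₁ hNj hNP hNj1 hβ with ⟨hb, hx⟩ | ⟨hb, hx⟩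
    · exact Or.inl ⟨NodalPhase.Same.trans hb hβ, hx⟩
    · refine Or.inr ⟨fun hs => ?_, hx⟩
      exact NodalPhase.not_same_and_opp H hNj1 hs (NodalPhase.Opp.same hb hβ)
  · intro j hj hjp hβ
    have hNj := hN j (by omega) (by omega)
    have hNj1 := hN (j + 1) (by omega) hjp
    have hsucc : (j + 1) • P₁ = j • P₁ + P₁ := succ_nsmul P₁ j
    have hopp : D.Opp v (j • P₁) P₁ := (NodalPhase.same_or_opp hNj hNP).resolve_left hβ
    show (¬ D.Same v ((j + 1) • P₁) P₁ ∧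
        v (D.X ((j + 1) • P₁)) * v (D.X (1 • P₁)) = v (D.X (j • P₁))) ∨
      (D.Same v ((j + 1) • P₁) P₁ ∧
        v (D.X ((j + 1) • P₁)) * v (D.X (j • P₁)) = v (D.X (1 • P₁)))
    rw [one_nsmul, hsucc]
    rw [hsucc] at hNj1
    rcases R.opp (j • P₁) P₁ hNj hNP hNj1 hopp with ⟨hb, hx⟩ | ⟨hb, hx⟩
    · exact Or.inr ⟨hb, hx⟩
    · refine Or.inl ⟨fun hs => ?_, hx⟩
      exact NodalPhase.not_same_and_opp H hNj1 hs (NodalPhase.Same.opp hb hopp)
  · have hlast : (p - 1) • P₁ = -P₁ := by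
      have h1 : (p - 1) • P₁ + P₁ = 0 := by
        rw [← succ_nsmul, Nat.sub_add_cancel hp.one_le, hpP₁]
      exact eq_neg_of_add_eq_zero_left h1
    show ¬ D.Same v ((p - 1) • P₁) P₁
    rw [hlast]
    intro hs
    have hNneg : D.InN v (-P₁) := by
      have := hN (p - 1) (by omega) (by omega)
      rwa [hlast] at this
    exact NodalPhase.not_same_and_opp H hNneg hs (NodalPhase.opp_neg hP₁ne (NodalPhase.InN.X_ne_zero hNP))
  · have hlast : (p - 1) • P₁ = -P₁ := by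
      have h1 : (p - 1) • P₁ + P₁ = 0 := by
        rw [← succ_nsmul, Nat.sub_add_cancel hp.one_le, hpP₁]
      exact eq_neg_of_add_eq_zero_left h1
    show v (D.X ((p - 1) • P₁)) = v (D.X (1 • P₁))
    rw [hlast, one_nsmul, D.X_neg P₁ hP₁ne]

end Fermat.Agent.S15.Velu.NodeStruct
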