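import Mathlib
import Fermat.Agent.S15.Velu.Algebra
import Fermat.Agent.S15.Velu.NodeVal
import Fermat.Agent.S58.Mult.NodeTorsion
import Fermat.Agent.S13.Local.NodalRed

/-!
# PROJECT M (S15), leaf (e2a), step C: the nodal frame of a curve with multiplicative reduction

`K` algebraically closed, `A` a valuation subring, `W` an `A`-integral Weierstrass curve with
`v Δ < 1`, `v c₄ = 1`.  Main's `S58/Mult/NodeTorsion.exists_node_torsion` gives an integral
`2`-torsion point `(r, t)` reducing to the node; translating it to the origin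
(`tr r t = ⟨1, r, 0, t⟩`) puts `W` in the nodal form of `S13/Local` (`exists_nodal_frame`).

`val_veluJ_pow_of_frame`: the valuation of Vélu's `j` for a cyclic subgroup of odd prime order all
of whose non-zero points reduce to the node, for the original curve `W`.
-/

set_option autoImplicit false
set_option linter.unusedSectionVars false
set_option linter.unusedVariables false

noncomputable section

namespace Fermat.Agent.S15.Velu.ToNodal

open WeierstrassCurve
open Fermat.Agent.S13.Local Fermat.Agent.S13.Local.NodalInst Fermat.Agent.S13.CU.VarChange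
open Fermat.Agent.S15.Velu

variable {K : Type*} [Field K]

/-- The translation `(x, y) ↦ (x + r, y + t)`. -/
def tr (r t : K) : VariableChange K := ⟨1, r, 0, t⟩

section coeffs

variable (W : WeierstrassCurve K) (r t : K)

theorem tr_a₁ : (tr r t • W).a₁ = W.a₁ := by simp [tr, variableChange_a₁]
theorem tr_a₂ : (tr r t • W).a₂ = W.a₂ + 3 * r := by simp [tr, variableChange_a₂]
theorem tr_a₃ : (tr r t • W).a₃ = W.a₃ + r * W.a₁ + 2 * t := by simp [tr, variableChange_a₃]
theorem tr_a₄ : (tr r t • W).a₄ = W.a₄ + 2 * r * W.a₂ - t * W.a₁ + 3 * r ^ 2 := by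
  simp [tr, variableChange_a₄]
theorem tr_a₆ : (tr r t • W).a₆
    = W.a₆ + r * W.a₄ + r ^ 2 * W.a₂ + r ^ 3 - t * W.a₃ - t ^ 2 - r * t * W.a₁ := by
  simp [tr, variableChange_a₆]
theorem tr_c₄ : (tr r t • W).c₄ = W.c₄ := by simp [tr, variableChange_c₄]
theorem tr_Δ : (tr r t • W).Δ = W.Δ := by simp [tr, variableChange_Δ]

theorem vx_tr (x : K) : vx (tr r t) x = x + r := by simp [vx, tr]
theorem vy_tr (x y : K) : vy (tr r t) x y = y + t := by simp [vy, tr]

end coeffs

/-- **The nodal frame.** -/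
theorem exists_nodal_frame [IsAlgClosed K] (A : ValuationSubring K) (W : WeierstrassCurve K)
    (h2 : (2 : K) ≠ 0) (h1 : A.valuation W.a₁ ≤ 1) (h2' : A.valuation W.a₂ ≤ 1)
    (h3 : A.valuation W.a₃ ≤ 1) (h4 : A.valuation W.a₄ ≤ 1) (h6 : A.valuation W.a₆ ≤ 1)
    (hΔ0 : W.Δ ≠ 0) (hΔ : A.valuation W.Δ < 1) (hc4 : A.valuation W.c₄ = 1) :
    ∃ r t : K, A.valuation r ≤ 1 ∧ A.valuation t ≤ 1 ∧ IsNodalForm (tr r t • W) ∧
      NodalData.Hyp A.valuation (tr r t • W).a₁ (tr r t • W).a₂ (tr r t • W).a₄ := by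
  obtain ⟨r, t, hr, ht, e3, e6, e4⟩ :=
    Fermat.Agent.S58.Mult.NodeTorsion.exists_node_torsion (A := A) W h2 h1 h2' h3 h4 h6 hΔ hc4
  have ha3 : (tr r t • W).a₃ = 0 := by rw [tr_a₃]; exact e3
  have ha6 : (tr r t • W).a₆ = 0 := by rw [tr_a₆]; exact e6
  have hV : IsNodalForm (tr r t • W) := ⟨ha3, ha6, by rw [tr_Δ]; exact hΔ0⟩
  refine ⟨r, t, hr, ht, hV, ⟨?_, ?_, ?_, ?_⟩⟩
  · rw [tr_a₁]; exact h1
  · rw [tr_a₂]
    exact NodalRed.val_add_le_one h2' (NodalRed.val_mul_le_one (NodalRed.val_ofNat_le_one 3) hr)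
  · rw [tr_a₄]; exact e4
  · have e : ((tr r t • W).a₁ ^ 2 + 4 * (tr r t • W).a₂) ^ 2
        = (tr r t • W).c₄ + 48 * (tr r t • W).a₄ := by
      rw [WeierstrassCurve.c₄, WeierstrassCurve.b₂, WeierstrassCurve.b₄, ha3]; ring
    have h48 : A.valuation (48 * (tr r t • W).a₄) < 1 := by
      refine NodalRed.val_mul_lt_one_right (NodalRed.val_ofNat_le_one 48) ?_
      rw [tr_a₄]; exact e4
    have hc4v : A.valuation (tr r t • W).c₄ = 1 := by rw [tr_c₄]; exact hc4
    have h : A.valuation (((tr r t • W).a₁ ^ 2 + 4 * (tr r t • W).a₂) ^ 2) = 1 := by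
      rw [e, Valuation.map_add_eq_of_lt_left _ (by rw [hc4v]; exact h48), hc4v]
    rw [map_pow] at h
    exact (pow_eq_one_iff_of_nonneg zero_le two_ne_zero).mp h

/-- **(e2a) for the original curve**: if `P'` on the translated nodal curve has odd prime order
`p` and all its non-zero multiples reduce to the node, Vélu's `j` of the image subgroup on `W`
has `v(j')^p = v(j)`. -/
theorem val_veluJ_pow_of_frame [DecidableEq K] (A : ValuationSubring K) (W : WeierstrassCurve K)
    (h2 : (2 : K) ≠ 0) {r t : K} (hV : IsNodalForm (tr r t • W))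
    (H : NodalData.Hyp A.valuation (tr r t • W).a₁ (tr r t • W).a₂ (tr r t • W).a₄)
    {p : ℕ} (hp : p.Prime) (hp2 : p ≠ 2) {P' : (tr r t • W).toAffine.Point} (hP' : P' ≠ 0)
    (hpP' : p • P' = 0)
    (hall : ∀ j, 0 < j → j < p → A.valuation (ptX (tr r t • W) (j • P')) < 1) :
    A.valuation (veluJ W (AddSubgroup.zmultiples (pointEquiv W (tr r t) P') :
      Set W.toAffine.Point)) ^ p = A.valuation (W.c₄ ^ 3 / W.Δ) := by
  have hfin : (AddSubgroup.zmultiples (pointEquiv W (tr r t) P') :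
      Set W.toAffine.Point).Finite := by
    rw [finite_zmultiples, isOfFinAddOrder_iff_nsmul_eq_zero]
    refine ⟨p, hp.pos, ?_⟩
    rw [← map_nsmul, hpP', map_zero]
  rw [← veluJ_zmultiples_variableChange W (tr r t) P' hfin,
    NodeVal.val_veluJ_pow hV H h2 hp hp2 hP' hpP' hall, tr_c₄, tr_Δ]

end Fermat.Agent.S15.Velu.ToNodal
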