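import Mathlib
import Fermat.Agent.S15.Velu.ToNodal
import Fermat.Agent.S58.Mult.Unipotent
import Fermat.Prelude.Def_EllipticCurve_ZeroComponentAt

/-!
# PROJECT M (S15), leaf (e2a), step D: the bridge to `InZeroComponentAt` and the seam

`W : WeierstrassCurve ℤ`, `A` a valuation subring of `ℚ̄` with `v Δ < 1`, `v c₄ = 1`.

* `inZero_of_e0`: in the nodal frame `tr r t • E`, a point of `E0` (i.e. `0` or `1 ≤ v X`) maps to
  a point of `E` satisfying the Prelude predicate `InZeroComponentAt A`.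
* `veluJ_val_of_not_inZero`: **the seam of (e2a)**: `Q` of odd prime order `p`, not in the
  component of zero at `A` ⟹ `v(veluJ E ⟨Q⟩)^p = v(c₄³/Δ)`.
-/

set_option autoImplicit false
set_option linter.unusedSectionVars false
set_option linter.unusedVariables false

noncomputable section

namespace Fermat.Agent.S15.Velu.Bridge

open WeierstrassCurve WeierstrassCurve.Affine
open Fermat.Agent.S13.Local Fermat.Agent.S13.Local.NodalInst Fermat.Agent.S13.CU.VarChange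
open Fermat.Agent.S15.Velu Fermat.Agent.S15.Velu.ToNodal
open Fermat.Agent.S58.Mult.Unipotent (EQ a₁_eq a₂_eq a₃_eq a₄_eq a₆_eq Δ_eq c₄_eq)

local notation "Kb" => AlgebraicClosure ℚ

variable (W : WeierstrassCurve ℤ) (A : ValuationSubring Kb)

/-- An integral point of `E` one of whose partial derivatives is a unit has non-singular
reduction. -/
theorem nonsingular_residue {x y : Kb} (hx : x ∈ A) (hy : y ∈ A)
    (heq : ((EQ W)⁄Kb).toAffine.Equation x y)
    (hns : A.valuation (((EQ W)⁄Kb).a₁ * y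
        - (3 * x ^ 2 + 2 * ((EQ W)⁄Kb).a₂ * x + ((EQ W)⁄Kb).a₄)) = 1 ∨
      A.valuation (2 * y + ((EQ W)⁄Kb).a₁ * x + ((EQ W)⁄Kb).a₃) = 1) :
    (W.map (Int.castRingHom (IsLocalRing.ResidueField A))).toAffine.Nonsingular
      (IsLocalRing.residue A ⟨x, hx⟩) (IsLocalRing.residue A ⟨y, hy⟩) := by
  set xA : A := ⟨x, hx⟩ with hxA
  set yA : A := ⟨y, hy⟩ with hyA
  rw [Affine.equation_iff] at heq
  rw [a₁_eq, a₂_eq, a₃_eq, a₄_eq, a₆_eq] at heq
  rw [a₁_eq, a₂_eq, a₃_eq, a₄_eq] at hns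
  have hA : yA ^ 2 + ((W.a₁ : ℤ) : A) * xA * yA + ((W.a₃ : ℤ) : A) * yA
      = xA ^ 3 + ((W.a₂ : ℤ) : A) * xA ^ 2 + ((W.a₄ : ℤ) : A) * xA + ((W.a₆ : ℤ) : A) := by
    apply Subtype.ext
    push_cast
    exact heq
  rw [Affine.nonsingular_iff']
  refine ⟨?_, ?_⟩
  · rw [Affine.equation_iff]
    have := congrArg (IsLocalRing.residue A) hA
    simpa [map_add, map_mul, map_pow, map_intCast] using this
  · rcases hns with h | h
    · left
      have hu : IsUnit (((W.a₁ : ℤ) : A) * yA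
          - (3 * xA ^ 2 + 2 * ((W.a₂ : ℤ) : A) * xA + ((W.a₄ : ℤ) : A))) := by
        rw [A.valuation_eq_one_iff]
        push_cast
        exact h
      have := (IsLocalRing.residue_ne_zero_iff_isUnit _).mpr hu
      simpa [map_add, map_sub, map_mul, map_pow, map_intCast, map_ofNat] using this
    · right
      have hu : IsUnit (2 * yA + ((W.a₁ : ℤ) : A) * xA + ((W.a₃ : ℤ) : A)) := by
        rw [A.valuation_eq_one_iff]
        push_cast
        exact h
      have := (IsLocalRing.residue_ne_zero_iff_isUnit _).mpr hu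
      simpa [map_add, map_sub, map_mul, map_pow, map_intCast, map_ofNat] using this

variable {W A}

/-- In the nodal frame, a point with non-singular reduction (`E0`) maps to a point in the
component of zero. -/
theorem inZero_of_e0 {r t : Kb} (hr : A.valuation r ≤ 1) (ht : A.valuation t ≤ 1)
    (hV : IsNodalForm (tr r t • ((EQ W)⁄Kb)))
    (H : NodalData.Hyp A.valuation (tr r t • ((EQ W)⁄Kb)).a₁ (tr r t • ((EQ W)⁄Kb)).a₂
      (tr r t • ((EQ W)⁄Kb)).a₄)
    {P : (tr r t • ((EQ W)⁄Kb)).toAffine.Point} (hP : (nodalData hV).E0 A.valuation P) :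
    W.InZeroComponentAt A (pointEquiv ((EQ W)⁄Kb) (tr r t) P) := by
  rcases P with _ | ⟨X, Y, h⟩
  · left; exact map_zero _
  · right
    have hP0 : (Point.some X Y h : (tr r t • ((EQ W)⁄Kb)).toAffine.Point) ≠ 0 := by
      intro h0; cases h0
    have hX1 : 1 ≤ A.valuation X := by
      rcases hP with h0 | h1
      · exact absurd h0 hP0
      · exact h1
    have hns0 := (nonsingular_smul_iff ((EQ W)⁄Kb) (tr r t) X Y).mp h
    refine ⟨vx (tr r t) X, vy (tr r t) X Y, hns0, pointEquiv_some _ _ h, ?_⟩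
    rw [vx_tr, vy_tr] at *
    rcases hX1.lt_or_eq with hlt | heq
    · left
      rw [← A.valuation_le_one_iff, not_le,
        Valuation.map_add_eq_of_lt_left _ (lt_of_le_of_lt hr hlt)]
      exact hlt
    · right
      have hXle : A.valuation X ≤ 1 := le_of_eq heq.symm
      have hYle : A.valuation Y ≤ 1 :=
        NodalRed.val_Y_le_one (nodalData hV) A.valuation H hP0 hXle
      have hx : X + r ∈ A :=
        (A.valuation_le_one_iff _).mp (NodalRed.val_add_le_one hXle hr)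
      have hy : Y + t ∈ A :=
        (A.valuation_le_one_iff _).mp (NodalRed.val_add_le_one hYle ht)
      refine ⟨hx, hy, nonsingular_residue W A hx hy hns0.1 ?_⟩
      have hTM := NodalRed.nonsing (nodalData hV) A.valuation H hP0 heq.symm
      have e3 : (tr r t • ((EQ W)⁄Kb)).a₃ = 0 := hV.a3
      rw [tr_a₃] at e3
      rcases hTM with hT | hM
      · right
        have : 2 * (Y + t) + ((EQ W)⁄Kb).a₁ * (X + r) + ((EQ W)⁄Kb).a₃
            = (nodalData hV).T (Point.some X Y h) := by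
          show _ = 2 * Y + (tr r t • ((EQ W)⁄Kb)).a₁ * X
          rw [tr_a₁]
          linear_combination e3
        rw [this]; exact hT
      · left
        have : ((EQ W)⁄Kb).a₁ * (Y + t)
            - (3 * (X + r) ^ 2 + 2 * ((EQ W)⁄Kb).a₂ * (X + r) + ((EQ W)⁄Kb).a₄)
            = -(nodalData hV).M (Point.some X Y h) := by
          show _ = -(3 * X ^ 2 + 2 * (tr r t • ((EQ W)⁄Kb)).a₂ * X + (tr r t • ((EQ W)⁄Kb)).a₄
            - (tr r t • ((EQ W)⁄Kb)).a₁ * Y)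
          rw [tr_a₁, tr_a₂, tr_a₄]
          ring
        rw [this, Valuation.map_neg]; exact hM

/-- **THE SEAM OF (e2a).**  `W` over `ℤ` with multiplicative reduction at `A` (`v Δ < 1`,
`v c₄ = 1`), `Q` of odd prime order `p` on `E(ℚ̄)`, not in the component of zero at `A`:
`v(veluJ E ⟨Q⟩)^p = v(c₄³/Δ)`. -/
theorem veluJ_val_of_not_inZero (hΔ0 : W.Δ ≠ 0) (hΔ : A.valuation ((W.Δ : ℤ) : Kb) < 1)
    (hc₄ : A.valuation ((W.c₄ : ℤ) : Kb) = 1) {p : ℕ} (hp : p.Prime) (hp2 : p ≠ 2)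
    {Q : ((EQ W)⁄Kb).Point} (hQ : Q ≠ 0) (hpQ : p • Q = 0)
    (hin : ¬ W.InZeroComponentAt A Q) :
    A.valuation (veluJ ((EQ W)⁄Kb) (AddSubgroup.zmultiples Q : Set ((EQ W)⁄Kb).Point)) ^ p
      = A.valuation (((W.c₄ : ℤ) : Kb) ^ 3 / ((W.Δ : ℤ) : Kb)) := by
  have hint : ∀ n : ℤ, A.valuation ((n : ℤ) : Kb) ≤ 1 := fun n =>
    (A.valuation_le_one_iff _).mpr (intCast_mem A n)
  have h2 : (2 : Kb) ≠ 0 := two_ne_zero
  have hΔ0' : ((EQ W)⁄Kb).Δ ≠ 0 := by
    rw [Δ_eq]; exact_mod_cast hΔ0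
  obtain ⟨r, t, hr, ht, hV, H⟩ := exists_nodal_frame A ((EQ W)⁄Kb) h2
    (by rw [a₁_eq]; exact hint _) (by rw [a₂_eq]; exact hint _) (by rw [a₃_eq]; exact hint _)
    (by rw [a₄_eq]; exact hint _) (by rw [a₆_eq]; exact hint _) hΔ0'
    (by rw [Δ_eq]; exact hΔ) (by rw [c₄_eq]; exact hc₄)
  set φ := pointEquiv ((EQ W)⁄Kb) (tr r t) with hφ
  set Q' := φ.symm Q with hQ'
  have hφQ : φ Q' = Q := AddEquiv.apply_symm_apply _ _
  have hQ'0 : Q' ≠ 0 := by
    intro h0
    apply hQ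
    rw [← hφQ, h0, map_zero]
  have hpQ' : p • Q' = 0 := by
    rw [hQ', ← map_nsmul, hpQ, map_zero]
  have hall : ∀ j, 0 < j → j < p →
      A.valuation (ptX (tr r t • ((EQ W)⁄Kb)) (j • Q')) < 1 := by
    intro j hj hjp
    by_contra hcon
    rw [not_lt] at hcon
    have hjE0 : (nodalData hV).E0 A.valuation (j • Q') := Or.inr hcon
    have hndvd : ¬ p ∣ j := fun hd => absurd (Nat.le_of_dvd hj hd) (not_le.mpr hjp)
    have hE0 : (nodalData hV).E0 A.valuation Q' :=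
      NodalRed.e0_of_nsmul (nodalData hV) A.valuation H hp hpQ' hndvd hjE0
    apply hin
    rw [← hφQ]
    exact inZero_of_e0 hr ht hV H hE0
  have key := val_veluJ_pow_of_frame A ((EQ W)⁄Kb) h2 hV H hp hp2 hQ'0 hpQ' hall
  rw [show pointEquiv ((EQ W)⁄Kb) (tr r t) Q' = Q from hφQ, c₄_eq, Δ_eq] at key
  exact key

/-- the same with the hypotheses `ℓ ∣ Δ`, `ℓ ∤ c₄`, `A` over `ℓ`. -/
theorem veluJ_val_of_not_inZero' (hΔ0 : W.Δ ≠ 0) {ℓ : ℕ} (hℓ : ℓ.Prime)
    (hℓΔ : (ℓ : ℤ) ∣ W.Δ) (hℓc₄ : ¬ (ℓ : ℤ) ∣ W.c₄) (hA : A.LiesOverPrime ℓ)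
    {p : ℕ} (hp : p.Prime) (hp2 : p ≠ 2)
    {Q : ((EQ W)⁄Kb).Point} (hQ : Q ≠ 0) (hpQ : p • Q = 0)
    (hin : ¬ W.InZeroComponentAt A Q) :
    A.valuation (veluJ ((EQ W)⁄Kb) (AddSubgroup.zmultiples Q : Set ((EQ W)⁄Kb).Point)) ^ p
      = A.valuation (((W.c₄ : ℤ) : Kb) ^ 3 / ((W.Δ : ℤ) : Kb)) :=
  veluJ_val_of_not_inZero hΔ0
    (Fermat.Agent.S05.LocalVal.intCast_valuation_lt_one hℓ hA hℓΔ)
    (Fermat.Agent.S05.LocalVal.intCast_valuation_eq_one hℓ hA hℓc₄) hp hp2 hQ hpQ hin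

end Fermat.Agent.S15.Velu.Bridge
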