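import Mathlib
import Fermat.Agent.S15.Velu.NodeVal

/-!
# PROJECT M, block [V] (S12), leaf (V2-model), local half (M1)+(M2): Vélu's MODEL in the node case

Same setting as `NodeVal`: `W : y² + a₁ x y = x³ + a₂ x² + a₄ x` over a valued field with
`Hyp v a₁ a₂ a₄`, `P` of odd prime order `p` all of whose non-zero multiples reduce to the node.
`NodeVal` computes the valuation of Vélu's `j`; here we export the finer facts on Vélu's model
`veluCurve W ⟨P⟩ = ⟨a₁, a₂, 0, a₄ - 5t, -b₂ t - 7w⟩` itself: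

* `v t = h`, `v w ≤ max (h²) (v a₄) < h`, where `h = v (X P₁) < 1` at a generator of maximal `v X`;
* the new `a₄`, `a₆` have valuation `≤ h` (the model is integral, the node stays at the origin);
* `c₄` is a unit, `v Δ' = h`, and `h ^ p = v Δ`.

So multiplicative reduction is preserved and the tower can be continued at every such place.
-/

set_option autoImplicit false
set_option linter.unusedSectionVars false
set_option linter.unusedVariables false

noncomputable section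

namespace Fermat.Agent.S15.Velu.NodeModel

open WeierstrassCurve Fermat.Agent.S13.Local Fermat.Agent.S13.Local.NodalData
  Fermat.Agent.S13.Local.NodalInst Fermat.Agent.S15.Velu Fermat.Agent.S15.Velu.NodeVal

variable {K : Type*} [Field K]
variable {Γ₀ : Type*} [LinearOrderedCommGroupWithZero Γ₀] {v : Valuation K Γ₀}
variable [DecidableEq K] {W : WeierstrassCurve K}

/-- **The model at a maximal generator** `P₁` with the phase structure of
`NodeStruct.exists_max_generator`. -/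
theorem model_of_struct (hW : IsNodalForm W) (H : Hyp v W.a₁ W.a₂ W.a₄)
    (h2 : (2 : K) ≠ 0) {p : ℕ} (hp : p.Prime) (hp2 : p ≠ 2)
    {P₁ : W.toAffine.Point} (hP₁ : P₁ ≠ 0) (hpP₁ : p • P₁ = 0)
    (hN1 : v W.a₄ < v (ptX W P₁) ∧ v (ptX W P₁) < 1)
    (hpow : v (ptX W P₁) ^ p = v W.a₄ ^ 2)
    (hsmall : ∀ m, 2 ≤ m → m + 2 ≤ p → v (ptX W (m • P₁)) ≤ v (ptX W P₁) ^ 2) :
    v (veluT W (AddSubgroup.zmultiples P₁ : Set W.toAffine.Point)) = v (ptX W P₁) ∧
    v (veluW W (AddSubgroup.zmultiples P₁ : Set W.toAffine.Point)) < v (ptX W P₁) ∧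
    v (veluCurve W (AddSubgroup.zmultiples P₁ : Set W.toAffine.Point)).a₄ ≤ v (ptX W P₁) ∧
    v (veluCurve W (AddSubgroup.zmultiples P₁ : Set W.toAffine.Point)).a₆ ≤ v (ptX W P₁) ∧
    v (veluCurve W (AddSubgroup.zmultiples P₁ : Set W.toAffine.Point)).c₄ = 1 ∧
    v (veluCurve W (AddSubgroup.zmultiples P₁ : Set W.toAffine.Point)).Δ = v (ptX W P₁) := by
  classical
  have hp3 : 3 ≤ p := by
    have := hp.two_le
    omega
  set X₁ := ptX W P₁ with hX₁
  set h := v X₁ with hh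
  set ε := v W.a₄ with hε
  set b2 : K := W.a₁ ^ 2 + 4 * W.a₂ with hb2
  have hb2v : v b2 = 1 := H.b2
  have hh1 : h < 1 := hN1.2
  have hεh : ε < h := hN1.1
  have hh0 : h ≠ 0 := by
    intro h0
    rw [h0] at hεh
    exact not_lt_zero hεh
  have hhpos : 0 < h := zero_lt_iff.mpr hh0
  have hh2 : h ^ 2 < h := by
    rw [pow_two]
    calc h * h < h * 1 := mul_lt_mul_of_pos_left hh1 hhpos
      _ = h := mul_one h
  set δ := max (h ^ 2) ε with hδ
  have hδh : δ < h := max_lt hh2 hεh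
  have hh2δ : h ^ 2 ≤ δ := le_max_left _ _
  have hεδ : ε ≤ δ := le_max_right _ _
  have hh3δ : h ^ 3 ≤ δ := by
    refine le_trans ?_ hh2δ
    exact pow_le_pow_right_of_le_one' hh1.le (by norm_num)
  -- the invariants of `W`
  have ha3 : W.a₃ = 0 := hW.a3
  have ha6 : W.a₆ = 0 := hW.a6
  have hWb2 : W.b₂ = b2 := rfl
  have hWb4 : W.b₄ = 2 * W.a₄ := by
    simp only [WeierstrassCurve.b₄, ha3]; ring
  have hWb6 : W.b₆ = 0 := by
    simp only [WeierstrassCurve.b₆, ha3, ha6]; ring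
  have hb4v : v W.b₄ ≤ ε := by
    rw [hWb4]
    exact v_mul_le_of_le_one (v_ofNat_le v 2) le_rfl
  -- the half system
  set hf := (p - 1) / 2 with hhf
  have hhf1 : 1 ≤ hf := by omega
  have hsplit : Finset.Icc 1 hf = insert 1 (Finset.Icc 2 hf) := by
    ext m
    simp only [Finset.mem_Icc, Finset.mem_insert]
    omega
  have hnotmem : (1 : ℕ) ∉ Finset.Icc 2 hf := by
    simp only [Finset.mem_Icc]; omega
  have hXm : ∀ m ∈ Finset.Icc 2 hf, v (ptX W (m • P₁)) ≤ h ^ 2 := by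
    intro m hm
    rw [Finset.mem_Icc] at hm
    exact hsmall m hm.1 (by omega)
  -- `t`
  have ht_eq := veluT_zmultiples (W := W) h2 hp hp2 hP₁ hpP₁
  have hw_eq := veluW_zmultiples (W := W) h2 hp hp2 hP₁ hpP₁
  set t := veluT W (AddSubgroup.zmultiples P₁ : Set W.toAffine.Point) with ht
  set w := veluW W (AddSubgroup.zmultiples P₁ : Set W.toAffine.Point) with hw
  have htTerm_small : ∀ m ∈ Finset.Icc 2 hf, v (tTerm W (ptX W (m • P₁))) ≤ δ := by
    intro m hm
    have hx := hXm m hm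
    unfold tTerm
    refine v.map_add_le (v.map_add_le ?_ ?_) (le_trans hb4v hεδ)
    · refine v_mul_le_of_le_one (v_ofNat_le v 6) ?_
      have := v_pow_le_pow hx 2
      refine le_trans this ?_
      rw [← pow_mul]
      exact le_trans (pow_le_pow_right_of_le_one' hh1.le (by norm_num)) hh2δ
    · rw [hWb2]
      exact v_mul_le_of_le_one hb2v.le (le_trans hx hh2δ)
  have ht_sub : v (t - b2 * X₁) ≤ δ := by
    rw [ht_eq, hsplit, Finset.sum_insert hnotmem, one_nsmul]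
    have e : tTerm W X₁ + ∑ m ∈ Finset.Icc 2 hf, tTerm W (ptX W (m • P₁)) - b2 * X₁
        = (6 * X₁ ^ 2 + W.b₄) + ∑ m ∈ Finset.Icc 2 hf, tTerm W (ptX W (m • P₁)) := by
      unfold tTerm
      rw [hWb2]
      ring
    rw [e]
    refine v.map_add_le (v.map_add_le ?_ (le_trans hb4v hεδ)) (v.map_sum_le htTerm_small)
    exact v_mul_le_of_le_one (v_ofNat_le v 6) (le_trans (v_pow_le_pow le_rfl 2) hh2δ)
  have hb2X : v (b2 * X₁) = h := by rw [map_mul, hb2v, one_mul]
  have htv : v t = h := by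
    rw [← hb2X]
    exact v_eq_of_sub_le ht_sub (by rw [hb2X]; exact hδh)
  -- `w`
  have hXle : ∀ m ∈ Finset.Icc 1 hf, v (ptX W (m • P₁)) ≤ h := by
    intro m hm
    rw [hsplit, Finset.mem_insert] at hm
    rcases hm with rfl | hm
    · rw [one_nsmul]
    · exact le_trans (hXm m hm) hh2.le
  have hw_small : v w ≤ δ := by
    rw [hw_eq]
    refine v.map_sum_le fun m hm => ?_
    have hx := hXle m hm
    unfold wTerm
    rw [hWb6, add_zero]
    refine v.map_add_le (v.map_add_le ?_ ?_) ?_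
    · exact v_mul_le_of_le_one (v_ofNat_le v 10) (le_trans (v_pow_le_pow hx 3) hh3δ)
    · rw [hWb2]
      refine v_mul_le_of_le_one ?_ (le_trans (v_pow_le_pow hx 2) hh2δ)
      rw [map_mul, hb2v, mul_one]
      exact v_ofNat_le v 2
    · rw [mul_assoc]
      refine v_mul_le_of_le_one (v_ofNat_le v 3) ?_
      rw [mul_comm]
      refine v_mul_le_of_le_one (le_trans hx hh1.le) (le_trans hb4v hεδ)
  -- the coefficients of Vélu's curve
  set A4 : K := W.a₄ - 5 * t with hA4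
  set A6 : K := W.a₆ - W.b₂ * t - 7 * w with hA6
  have hA4v : v A4 ≤ h := by
    refine v.map_sub_le hεh.le ?_
    exact v_mul_le_of_le_one (v_ofNat_le v 5) htv.le
  set e6 : K := A6 + b2 ^ 2 * X₁ with he6
  have he6v : v e6 ≤ δ := by
    have e : e6 = -(b2 * (t - b2 * X₁)) - 7 * w := by
      rw [he6, hA6, ha6, hWb2]; ring
    rw [e]
    refine v.map_sub_le ?_ (v_mul_le_of_le_one (v_ofNat_le v 7) hw_small)
    rw [Valuation.map_neg]
    exact v_mul_le_of_le_one hb2v.le ht_sub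
  have hA6v : v A6 ≤ h := by
    have e : A6 = e6 - b2 ^ 2 * X₁ := by rw [he6]; ring
    rw [e]
    refine v.map_sub_le (le_trans he6v hδh.le) ?_
    rw [map_mul, map_pow, hb2v, one_pow, one_mul]
  have hcurve : veluCurve W (AddSubgroup.zmultiples P₁ : Set W.toAffine.Point)
      = ⟨W.a₁, W.a₂, 0, A4, A6⟩ := by
    unfold veluCurve
    rw [ha3]
  -- the discriminant of Vélu's curve
  have hΔ'' : v ((veluCurve W (AddSubgroup.zmultiples P₁ : Set W.toAffine.Point)).Δ) = h := by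
    rw [hcurve, Δ_of_a3, ← hb2]
    have hmain : v (b2 ^ 5 * X₁) = h := by
      rw [map_mul, map_pow, hb2v, one_pow, one_mul]
    have e : -b2 ^ 3 * A6 + b2 ^ 2 * A4 ^ 2 - 64 * A4 ^ 3 - 432 * A6 ^ 2 + 72 * b2 * A4 * A6
          - b2 ^ 5 * X₁
        = -(b2 ^ 3 * e6) + b2 ^ 2 * A4 ^ 2 - 64 * A4 ^ 3 - 432 * A6 ^ 2 + 72 * b2 * A4 * A6 := by
      rw [he6]; ring
    rw [← hmain]
    refine v_eq_of_sub_le (g := δ) ?_ (by rw [hmain]; exact hδh)
    rw [e]
    have hb2p : ∀ n : ℕ, v (b2 ^ n) ≤ 1 := fun n => by rw [map_pow, hb2v, one_pow]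
    refine v.map_add_le (v.map_sub_le (v.map_sub_le (v.map_add_le ?_ ?_) ?_) ?_) ?_
    · rw [Valuation.map_neg]
      exact v_mul_le_of_le_one (hb2p 3) he6v
    · exact v_mul_le_of_le_one (hb2p 2) (le_trans (v_pow_le_pow hA4v 2) hh2δ)
    · exact v_mul_le_of_le_one (v_ofNat_le v 64) (le_trans (v_pow_le_pow hA4v 3) hh3δ)
    · exact v_mul_le_of_le_one (v_ofNat_le v 432) (le_trans (v_pow_le_pow hA6v 2) hh2δ)
    · have h1 : v (72 * b2) ≤ 1 := by
        rw [map_mul, hb2v, mul_one]; exact v_ofNat_le v 72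
      rw [mul_assoc]
      refine v_mul_le_of_le_one h1 ?_
      refine le_trans (v_mul_le_mul hA4v hA6v) ?_
      rw [← pow_two]
      exact hh2δ
  -- `c₄` of Vélu's curve
  have hc₄'' : v ((veluCurve W (AddSubgroup.zmultiples P₁ : Set W.toAffine.Point)).c₄) = 1 := by
    rw [hcurve, c₄_of_a3, ← hb2]
    have h1 : v (b2 ^ 2) = 1 := by rw [map_pow, hb2v, one_pow]
    rw [← h1]
    refine v_eq_of_sub_le (g := h) ?_ (by rw [h1]; exact hh1)
    have e : b2 ^ 2 - 48 * A4 - b2 ^ 2 = -(48 * A4) := by ring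
    rw [e, Valuation.map_neg]
    exact v_mul_le_of_le_one (v_ofNat_le v 48) hA4v
  exact ⟨htv, lt_of_le_of_lt hw_small hδh, by rw [hcurve]; exact hA4v, by rw [hcurve]; exact hA6v,
    hc₄'', hΔ''⟩

/-- the discriminant of the nodal form -/
theorem val_Δ_nodal (hW : IsNodalForm W) (H : Hyp v W.a₁ W.a₂ W.a₄) : v W.Δ = v W.a₄ ^ 2 := by
  have ha3 : W.a₃ = 0 := hW.a3
  have ha6 : W.a₆ = 0 := hW.a6
  set b2 : K := W.a₁ ^ 2 + 4 * W.a₂ with hb2
  have hb2v : v b2 = 1 := H.b2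
  have hεlt : v W.a₄ < 1 := H.a4
  have hWcurve : W = ⟨W.a₁, W.a₂, 0, W.a₄, 0⟩ := by
    ext <;> simp [ha3, ha6]
  rw [hWcurve, Δ_of_a3, ← hb2]
  have e : -b2 ^ 3 * 0 + b2 ^ 2 * W.a₄ ^ 2 - 64 * W.a₄ ^ 3 - 432 * (0 : K) ^ 2
      + 72 * b2 * W.a₄ * 0 = W.a₄ ^ 2 * (b2 ^ 2 - 64 * W.a₄) := by ring
  rw [e, map_mul, map_pow]
  have h1 : v (b2 ^ 2) = 1 := by rw [map_pow, hb2v, one_pow]
  have h3 : v (b2 ^ 2 - 64 * W.a₄) = 1 := by
    rw [← h1]
    refine v_eq_of_sub_le (g := v W.a₄) ?_ (by rw [h1]; exact hεlt)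
    have e' : b2 ^ 2 - 64 * W.a₄ - b2 ^ 2 = -(64 * W.a₄) := by ring
    rw [e', Valuation.map_neg]
    exact v_mul_le_of_le_one (v_ofNat_le v 64) le_rfl
  rw [h3, mul_one]

/-- **Vélu's model in the node case.**  `P` of odd prime order `p` on a nodal form, all of whose
non-zero multiples reduce to the node, `C = ⟨P⟩`: there is `h < 1` with `h ^ p = v Δ` such that
`v t = h`, `v w < h`, the new `a₄`, `a₆` have valuation `≤ h`, the new `c₄` is a unit and the new
discriminant has valuation `h`. -/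
theorem model_node (hW : IsNodalForm W) (H : Hyp v W.a₁ W.a₂ W.a₄)
    (h2 : (2 : K) ≠ 0) {p : ℕ} (hp : p.Prime) (hp2 : p ≠ 2)
    {P : W.toAffine.Point} (hP : P ≠ 0) (hpP : p • P = 0)
    (hall : ∀ j, 0 < j → j < p → v (ptX W (j • P)) < 1) :
    ∃ h : Γ₀, h < 1 ∧ h ^ p = v W.Δ ∧
      v (veluT W (AddSubgroup.zmultiples P : Set W.toAffine.Point)) = h ∧
      v (veluW W (AddSubgroup.zmultiples P : Set W.toAffine.Point)) < h ∧
      v (veluCurve W (AddSubgroup.zmultiples P : Set W.toAffine.Point)).a₄ ≤ h ∧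
      v (veluCurve W (AddSubgroup.zmultiples P : Set W.toAffine.Point)).a₆ ≤ h ∧
      v (veluCurve W (AddSubgroup.zmultiples P : Set W.toAffine.Point)).c₄ = 1 ∧
      v (veluCurve W (AddSubgroup.zmultiples P : Set W.toAffine.Point)).Δ = h := by
  obtain ⟨j₀, hj0, hjp, hN, hpow, hsmall⟩ :=
    NodeStruct.exists_max_generator (D := nodalData hW) (v := v) H hp hp2 hP hpP hall
  have hP₁ : j₀ • P ≠ 0 := Fermat.Agent.S05.Phase.nsmul_ne_zero_of_lt hp hP hpP hj0 hjp
  have hpP₁ : p • (j₀ • P) = 0 := by rw [smul_comm, hpP, smul_zero]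
  have hN1 := hN 1 one_pos hp.one_lt
  rw [one_nsmul] at hN1
  rw [← zmultiples_nsmul_eq hp hP hpP hj0 hjp]
  refine ⟨v (ptX W (j₀ • P)), hN1.2.2, ?_,
    model_of_struct hW H h2 hp hp2 hP₁ hpP₁ ⟨hN1.2.1, hN1.2.2⟩ hpow hsmall⟩
  rw [val_Δ_nodal hW H]
  exact hpow

end Fermat.Agent.S15.Velu.NodeModel
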